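/-
S28 (Igusa), node W4b: the norm/irreducibility argument instantiated on an Igusa datum
`D : IgDatum K ζ N` over a field `K` in which `ζ` is a primitive `N`-th root of unity
(helper19's abstract `na_linearIndependent` applied to `𝕃 = K((t))`, `j = j(t^N)`,
`Y = D.y`, `U m = D.u m`, `ord = HahnSeries.order`).

Output: `nm_indep`   : `1, y, …, y^(n-1)` (`y = D.y D.x₀`, `n = card D.ι`) are linearly independent
                       over `K[j(t^N)]` inside `K((t))`;
        `nm_indep_q` : `bd_PolyIndep K (jqModC K) (qExpand K N (jqModC K)) (card D.ι)`, i.e. the same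
                       statement inside `K((q))` for `j(q)`, `j(q^N)` (shape of the front end's (HC)).
-/
import Mathlib
import Fermat.Agent.S28.Formal.Datum
import Fermat.Agent.S28.Formal.PolyOrder
import Fermat.Agent.S28.Norm.Abstract
import Fermat.Agent.S28.Bridge.Indep

set_option autoImplicit false

open ModularCurve Polynomial Finset

namespace Fermat.Agent.S28

section general

variable {R : Type*} [CommRing R]

theorem nm_y_congr {c c' : Rˣ} {k k' : ℕ} [NeZero k] [NeZero k'] (hc : c = c') (hk : k = k') :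
    fs_y c k = fs_y c' k' := by
  subst hc; subst hk; rfl

/-- for `a d = N` the conjugate `fs_jm ζ N a b d` is `jq(ζ^(a b) t^(a^2))` -/
theorem nm_jm_eq (ζ : Rˣ) {N a d : ℕ} (b : ℕ) [NeZero N] [NeZero a] (had : a * d = N) :
    fs_jm ζ N a b d = fs_y (ζ ^ (a * b)) (a ^ 2) := by
  have ha : 0 < a := Nat.pos_of_ne_zero (NeZero.ne a)
  have hd : 0 < d := by
    rcases Nat.eq_zero_or_pos d with h | h
    · exfalso; rw [h, mul_zero] at had; exact NeZero.ne N had.symm
    · exact h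
  have h1 : N / d = a := by rw [← had]; exact Nat.mul_div_cancel a hd
  have h2 : N * a / d = a ^ 2 := by
    rw [← had, show a * d * a = a ^ 2 * d by ring]; exact Nat.mul_div_cancel _ hd
  have h3 : fs_exp N a d = a ^ 2 := by
    rw [fs_exp_eq (by rw [h2]; exact pow_ne_zero 2 ha.ne'), h2]
  rw [fs_jm]
  exact nm_y_congr (by rw [fs_root, h1]) h3

end general

variable {K : Type*} [Field K] {ζ : Kˣ} {N : ℕ} [NeZero N]

/-- `helper19`'s evaluation map at `j(t^N)` is the datum's `fs_evalJ`. -/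
theorem nm_phi_eq_evalJ : na_phi (K := K) (fs_jT K N) = fs_evalJ K N := by
  refine Polynomial.ringHom_ext (fun c => ?_) ?_
  · rw [na_phi_C, na_algebraMap_eq_C, fs_evalJ, coe_eval₂RingHom, eval₂_C]
  · rw [na_phi_apply, aeval_X, fs_evalJ, coe_eval₂RingHom, eval₂_X]

theorem nm_jT_eq : fs_jT K N = fs_y (1 : Kˣ) N := by
  rw [fs_jT, fs_y_one]

theorem nm_jT_order : (fs_jT K N).order < 0 := by
  rw [nm_jT_eq, fs_y_order]
  have : (0 : ℤ) < N := by exact_mod_cast Nat.pos_of_ne_zero (NeZero.ne N)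
  omega

theorem nm_jT_transcendental : Transcendental K (fs_jT K N) :=
  fs_transcendental_of_order_neg nm_jT_order

theorem nm_evalJ_injective : Function.Injective (fs_evalJ K N) := by
  rw [← nm_phi_eq_evalJ]
  exact na_phi_injective _ nm_jT_transcendental

namespace IgDatum

variable (D : IgDatum K ζ N)

theorem nm_A_pos (x : D.ι) {m : ℕ} (hm : m ∣ N) : 0 < D.A x m :=
  Nat.pos_of_dvd_of_pos (D.A_dvd x hm) (Nat.pos_of_ne_zero (NeZero.ne N))

/-- the level-`N` conjugates in `helper10`'s normal form -/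
theorem nm_y_eq (x : D.ι) :
    haveI : NeZero (D.A x N) := ⟨(D.nm_A_pos x dvd_rfl).ne'⟩
    D.y x = fs_y (ζ ^ (D.A x N * D.B x N)) (D.A x N ^ 2) := by
  have : NeZero (D.A x N) := ⟨(D.nm_A_pos x dvd_rfl).ne'⟩
  exact nm_jm_eq ζ (D.B x N) (Nat.mul_div_cancel' (D.A_dvd x dvd_rfl))

theorem nm_y_injective (hζ : IsPrimitiveRoot ζ N) : Function.Injective D.y := by
  intro x x' h
  have : NeZero (D.A x N) := ⟨(D.nm_A_pos x dvd_rfl).ne'⟩
  have : NeZero (D.A x' N) := ⟨(D.nm_A_pos x' dvd_rfl).ne'⟩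
  rw [D.nm_y_eq x, D.nm_y_eq x'] at h
  obtain ⟨h1, h2, -⟩ := fs_y_hnf_inj hζ (Nat.mul_div_cancel' (D.A_dvd x dvd_rfl))
    (Nat.mul_div_cancel' (D.A_dvd x' dvd_rfl)) (D.B_lt x) (D.B_lt x') h
  exact D.inj x x' h1 h2

theorem nm_dvd_iff (x : D.ι) : N ∣ D.A x N ↔ x = D.x₀ := by
  constructor
  · intro h
    have h1 : D.A x N = N := Nat.dvd_antisymm (D.A_dvd x dvd_rfl) h
    have hN : 0 < N := Nat.pos_of_ne_zero (NeZero.ne N)
    have h2 : D.B x N = 0 := by
      have := D.B_lt x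
      rw [h1, Nat.div_self hN] at this
      omega
    have h3 : D.B D.x₀ N = 0 := by
      have := D.B_lt D.x₀
      rw [D.A_x₀, Nat.div_self hN] at this
      omega
    exact D.inj x D.x₀ (by rw [h1, D.A_x₀]) (by rw [h2, h3])
  · rintro rfl
    rw [D.A_x₀]

theorem nm_u_ne_zero (x : D.ι) {m : ℕ} (hm : m ∣ N) : D.u m x ≠ 0 := by
  intro h
  have := D.u_mul_uInv x hm
  rw [h, zero_mul] at this
  exact zero_ne_one this

theorem nm_u_inv (x : D.ι) {m : ℕ} (hm : m ∣ N) : (D.u m x)⁻¹ = D.uInv m x :=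
  inv_eq_of_mul_eq_one_right (D.u_mul_uInv x hm)

theorem nm_u_order (x : D.ι) {m : ℕ} (hm : m ∣ N) :
    (m : ℤ) * (D.u m x).order =
      (N : ℤ) * (((Nat.gcd (D.A x N) m : ℕ) : ℤ) ^ 2 - m) := by
  have hApos := D.nm_A_pos x hm
  have hAm : D.A x m ∣ m := D.A_dvd_of_dvd x hm
  set a := D.A x m with ha
  obtain ⟨d, hd⟩ := hAm
  have hmpos : 0 < m := Nat.pos_of_dvd_of_pos hm (Nat.pos_of_ne_zero (NeZero.ne N))
  have hdpos : 0 < d := by
    rcases Nat.eq_zero_or_pos d with h | h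
    · rw [h, mul_zero] at hd; omega
    · exact h
  have hmd : m / a = d := by rw [hd]; exact Nat.mul_div_cancel_left d hApos
  obtain ⟨k, hk⟩ := hm
  have hkpos : 0 < k := by
    rcases Nat.eq_zero_or_pos k with h | h
    · rw [h, mul_zero] at hk; exact absurd hk (NeZero.ne N)
    · exact h
  have hexp : N * a / d = a ^ 2 * k := by
    rw [hk, hd, show a * d * k * a = a ^ 2 * k * d by ring]
    exact Nat.mul_div_cancel _ hdpos
  have hexp' : fs_exp N a d = a ^ 2 * k := by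
    rw [fs_exp_eq (by rw [hexp]; positivity), hexp]
  -- the unit `a^12`
  have hu : IsUnit ((a : K) ^ 12) := by
    have h1 := D.A_mul_inv x (m := m) ⟨k, hk⟩
    exact (IsUnit.of_mul_eq_one _ h1).pow 12
  obtain ⟨e, he⟩ := hu
  have h1 : D.u m x = fs_u e (fs_root ζ N (D.B x m) d) (fs_exp N a d) N := by
    rw [IgDatum.u, hmd]
    exact fs_um_eq_u ζ N a (D.B x m) d e he
  rw [h1, fs_u_order, hexp', ← D.A_gcd x m ⟨k, hk⟩, ← ha]
  have hNk : (N : ℤ) = (m : ℤ) * k := by exact_mod_cast hk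
  push_cast
  linear_combination (-(a : ℤ) ^ 2) * hNk

theorem nm_integral_u (x : D.ι) {m : ℕ} (hm : m ∣ N) :
    (na_phi (K := K) (fs_jT K N)).IsIntegralElem (D.u m x) := by
  rw [nm_phi_eq_evalJ]
  refine ⟨D.Up m, ?_, ?_⟩
  · apply Polynomial.monic_of_injective (nm_evalJ_injective (K := K) (N := N))
    rw [D.Up_eq m hm]
    exact monic_prod_of_monic _ _ fun x _ => monic_X_sub_C _
  · rw [eval₂_eq_eval_map, D.Up_eq m hm, eval_prod]
    exact Finset.prod_eq_zero (mem_univ x) (by rw [eval_sub, eval_X, eval_C]; exact sub_self _)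

theorem nm_integral_uInv (x : D.ι) {m : ℕ} (hm : m ∣ N) :
    (na_phi (K := K) (fs_jT K N)).IsIntegralElem (D.u m x)⁻¹ := by
  rw [nm_phi_eq_evalJ, D.nm_u_inv x hm]
  refine ⟨D.Um m, ?_, ?_⟩
  · apply Polynomial.monic_of_injective (nm_evalJ_injective (K := K) (N := N))
    rw [D.Um_eq m hm]
    exact monic_prod_of_monic _ _ fun x _ => monic_X_sub_C _
  · rw [eval₂_eq_eval_map, D.Um_eq m hm, eval_prod]
    exact Finset.prod_eq_zero (mem_univ x) (by rw [eval_sub, eval_X, eval_C]; exact sub_self _)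

/-- **W4b**: `1, y, …, y^(n-1)` are linearly independent over `K[j(t^N)]`, `y = D.y D.x₀`,
`n = card D.ι`. -/
theorem nm_indep (hζ : IsPrimitiveRoot ζ N) (c : Fin (Fintype.card D.ι) → K[X])
    (hc : ∑ i, fs_evalJ K N (c i) * (D.y D.x₀) ^ (i : ℕ) = 0) : c = 0 := by
  refine na_linearIndependent (K := K) (fs_jT K N) nm_jT_transcendental D.y (D.nm_y_injective hζ)
    D.Φ (by rw [nm_phi_eq_evalJ]; exact D.Φ_eq) N (NeZero.ne N) (fun x => D.A x N) D.x₀
    D.nm_dvd_iff HahnSeries.order na_order_mul na_order_const D.u D.G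
    (fun m hm x => D.nm_u_ne_zero x hm) (fun m hm x => D.nm_integral_u x hm)
    (fun m hm x => D.nm_integral_uInv x hm)
    (fun m hm => by rw [nm_phi_eq_evalJ]; exact D.G_eq m hm)
    (fun m hm x => D.nm_u_order x hm) c ?_
  rw [nm_phi_eq_evalJ]
  exact hc

theorem nm_y_x₀ : D.y D.x₀ = qExpand K N (qExpand K N (jqModC K)) := by
  have hN : 0 < N := Nat.pos_of_ne_zero (NeZero.ne N)
  have h3 : D.B D.x₀ N = 0 := by
    have := D.B_lt D.x₀
    rw [D.A_x₀, Nat.div_self hN] at this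
    omega
  have : NeZero (D.A D.x₀ N) := ⟨(D.nm_A_pos D.x₀ dvd_rfl).ne'⟩
  rw [D.nm_y_eq D.x₀, qExpand_qExpand, ← fs_y_one]
  exact nm_y_congr (by rw [h3, mul_zero, pow_zero]) (by rw [D.A_x₀, sq])

/-- **W4b, `q`-form** (the shape of the front end's hypothesis (HC), over `K`):
`1, j(q^N), …, j(q^N)^(n-1)` are linearly independent over `K[j(q)]` in `K((q))`. -/
theorem nm_indep_q (hζ : IsPrimitiveRoot ζ N) :
    bd_PolyIndep K (jqModC K) (qExpand K N (jqModC K)) (Fintype.card D.ι) := by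
  rw [← bd_polyIndep_qExpand_iff N]
  intro c hc
  apply D.nm_indep hζ c
  rw [← hc]
  refine Finset.sum_congr rfl fun i _ => ?_
  rw [D.nm_y_x₀, ← nm_phi_eq_evalJ, na_phi_apply, fs_jT]

end IgDatum

end Fermat.Agent.S28
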